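/-
Program I (S37), chapter FROB (helper12): the contract `Skeleton8.FrobFacts ℓ A` for EVERY valuation
subring `A` of `ℚ̄` over `ℓ`:
 (F1) a Frobenius element at `A` exists (the proof of `Lib/FrobeniusExists` redone for the given `A`);
 (F2) the inertia group is stable under conjugation by the decomposition group;
 (F3) a conjugate of a Frobenius by a Frobenius is a Frobenius;
 (F4) two Frobenius elements differ by an element of the inertia group.
(F2)–(F4) are generic (any `L / K`, any valuation subring).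
-/
import Mathlib
import Fermat.Agent.Lib.FrobeniusExists
import Fermat.Agent.ES.TOP.Skeleton8

set_option autoImplicit false

open scoped Pointwise

namespace Fermat.Agent.ES.FROB.FrobFacts12

/-! ### Generic group theory of `D_A`, `I_A` and Frobenius elements -/

section Generic

variable {K L : Type*} [Field K] [Field L] [Algebra K L] (A : ValuationSubring L)

theorem mem_inertiaSubgroup_iff (g : A.decompositionSubgroup K) :
    g ∈ A.inertiaSubgroup K ↔ ∀ x : IsLocalRing.ResidueField A, g • x = x := by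
  rw [ValuationSubring.inertiaSubgroup, MonoidHom.mem_ker]
  constructor
  · intro h x
    have := congrArg (fun φ : RingAut (IsLocalRing.ResidueField A) => φ x) h
    simpa using this
  · intro h
    ext x
    simpa using h x

theorem mem_inertiaSubgroupIn_iff {τ : L ≃ₐ[K] L} :
    τ ∈ A.inertiaSubgroupIn K ↔ ∃ h : τ ∈ A.decompositionSubgroup K,
      ∀ x : IsLocalRing.ResidueField A, (⟨τ, h⟩ : A.decompositionSubgroup K) • x = x := by
  rw [ValuationSubring.inertiaSubgroupIn, Subgroup.mem_map]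
  constructor
  · rintro ⟨g, hg, rfl⟩
    exact ⟨g.2, (mem_inertiaSubgroup_iff A g).mp hg⟩
  · rintro ⟨h, hx⟩
    exact ⟨⟨τ, h⟩, (mem_inertiaSubgroup_iff A _).mpr hx, rfl⟩

/-- (F2) the inertia group is normalised by the decomposition group. -/
theorem conj_mem_inertiaSubgroupIn {σ0 τ : L ≃ₐ[K] L} (h0 : σ0 ∈ A.decompositionSubgroup K)
    (hτ : τ ∈ A.inertiaSubgroupIn K) : σ0 * τ * σ0⁻¹ ∈ A.inertiaSubgroupIn K := by
  obtain ⟨h, hx⟩ := (mem_inertiaSubgroupIn_iff A).mp hτ
  refine (mem_inertiaSubgroupIn_iff A).mpr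
    ⟨(A.decompositionSubgroup K).mul_mem ((A.decompositionSubgroup K).mul_mem h0 h)
      ((A.decompositionSubgroup K).inv_mem h0), fun x => ?_⟩
  have heq : (⟨σ0 * τ * σ0⁻¹, (A.decompositionSubgroup K).mul_mem
      ((A.decompositionSubgroup K).mul_mem h0 h) ((A.decompositionSubgroup K).inv_mem h0)⟩ :
      A.decompositionSubgroup K)
      = (⟨σ0, h0⟩ : A.decompositionSubgroup K) * ⟨τ, h⟩ * (⟨σ0, h0⟩ : A.decompositionSubgroup K)⁻¹ :=
    rfl
  rw [heq, mul_smul, mul_smul, hx, smul_inv_smul]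

/-- (F3) a conjugate of a Frobenius by a Frobenius is a Frobenius. -/
theorem conj_isFrobeniusAt {σ0 σ : L ≃ₐ[K] L} {q : ℕ} (h0 : σ0 ∈ A.decompositionSubgroup K)
    (hσ : A.IsFrobeniusAt σ q) : A.IsFrobeniusAt (σ0 * σ * σ0⁻¹) q := by
  obtain ⟨h, hx⟩ := hσ
  refine ⟨(A.decompositionSubgroup K).mul_mem ((A.decompositionSubgroup K).mul_mem h0 h)
      ((A.decompositionSubgroup K).inv_mem h0), fun x => ?_⟩
  have heq : (⟨σ0 * σ * σ0⁻¹, (A.decompositionSubgroup K).mul_mem
      ((A.decompositionSubgroup K).mul_mem h0 h) ((A.decompositionSubgroup K).inv_mem h0)⟩ :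
      A.decompositionSubgroup K)
      = (⟨σ0, h0⟩ : A.decompositionSubgroup K) * ⟨σ, h⟩ * (⟨σ0, h0⟩ : A.decompositionSubgroup K)⁻¹ :=
    rfl
  rw [heq, mul_smul, mul_smul, hx, smul_pow', smul_inv_smul]

/-- (F4) two Frobenius elements differ by an element of the inertia group. -/
theorem mul_inv_mem_inertiaSubgroupIn {σ0 σ : L ≃ₐ[K] L} {q : ℕ}
    (hσ0 : A.IsFrobeniusAt σ0 q) (hσ : A.IsFrobeniusAt σ q) :
    σ * σ0⁻¹ ∈ A.inertiaSubgroupIn K := by
  obtain ⟨h0, hx0⟩ := hσ0
  obtain ⟨h, hx⟩ := hσ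
  refine (mem_inertiaSubgroupIn_iff A).mpr
    ⟨(A.decompositionSubgroup K).mul_mem h ((A.decompositionSubgroup K).inv_mem h0), fun x => ?_⟩
  have heq : (⟨σ * σ0⁻¹, (A.decompositionSubgroup K).mul_mem h
      ((A.decompositionSubgroup K).inv_mem h0)⟩ : A.decompositionSubgroup K)
      = (⟨σ, h⟩ : A.decompositionSubgroup K) * (⟨σ0, h0⟩ : A.decompositionSubgroup K)⁻¹ :=
    rfl
  rw [heq, mul_smul, hx, ← hx0, smul_inv_smul]

end Generic

/-! ### (F1) Frobenius elements at a given valuation subring of `ℚ̄` -/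

section Frob

open Fermat.Agent.Lib.FrobeniusExists

attribute [local instance] isGalois_Qbar isIntegral_Qbar instTopZbar

local instance : DiscreteTopology Zbar := ⟨rfl⟩

attribute [local instance] continuousSMul_Zbar isInvariant_Zbar

/-- (F1) **Existence of a Frobenius element at a given valuation subring over `ℓ`.** -/
theorem exists_isFrobeniusAt_of (ℓ : ℕ) (hℓ : ℓ.Prime) (V : ValuationSubring Qbar)
    (hV : V.LiesOverPrime ℓ) : ∃ σ : GQ, V.IsFrobeniusAt σ ℓ := by
  have hZV : ∀ b : Zbar, (b : Qbar) ∈ V := fun b => mem_valuationSubring_of_isIntegral V b.2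
  let ι : Zbar →+* V := (algebraMap Zbar Qbar).codRestrict V.toSubring hZV
  let Q : Ideal Zbar := Ideal.comap ι (IsLocalRing.maximalIdeal V)
  have hQmem : ∀ b : Zbar, b ∈ Q ↔ (b : Qbar) ∈ V.nonunits := by
    intro b
    rw [Ideal.mem_comap, ← ValuationSubring.coe_mem_nonunits_iff]
    rfl
  haveI : Q.IsPrime := Ideal.comap_isPrime ι _
  have hPmax : (Ideal.span {(ℓ : ℤ)}).IsMaximal := by
    haveI : Fact ℓ.Prime := ⟨hℓ⟩
    exact Int.ideal_span_isMaximal_of_prime ℓ
  haveI hlo : Q.LiesOver (Ideal.span {(ℓ : ℤ)}) := by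
    rw [Ideal.liesOver_iff]
    refine hPmax.eq_of_le (Ideal.IsPrime.under ℤ Q).ne_top ?_
    rw [Ideal.span_le]
    intro z hz
    rw [Set.mem_singleton_iff] at hz
    subst hz
    change algebraMap ℤ Zbar (ℓ : ℤ) ∈ Q
    rw [hQmem]
    have hV' : (ℓ : Qbar) ∈ V.nonunits := hV
    simpa using hV'
  obtain ⟨φ, hφ⟩ := exists_frobenius_algEquiv ℓ hℓ Q
  obtain ⟨σ, hσ⟩ := Ideal.Quotient.stabilizerHom_surjective_of_profinite (G := GQ)
    (Ideal.span {(ℓ : ℤ)}) Q φ
  have hfrob : ∀ b : Zbar, σ.1 • b - b ^ ℓ ∈ Q := by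
    intro b
    have h1 := DFunLike.congr_fun hσ (Ideal.Quotient.mk Q b)
    rw [Ideal.Quotient.stabilizerHom_apply, hφ, ← map_pow] at h1
    exact Ideal.Quotient.eq.mp h1
  have hstab : ∀ τ : GQ, τ • Q = Q → ∀ x : Qbar, x ∈ V → τ x ∈ V := by
    intro τ hτ x hx
    obtain ⟨b, c, hb, hc, hbV, hxb⟩ := exists_num_den V ℓ hℓ hV hx
    let b' : Zbar := ⟨b, hb⟩
    let c' : Zbar := ⟨c, hc⟩
    have hb'Q : b' ∉ Q := fun h => hbV ((hQmem b').mp h)
    have hτb : τ • b' ∉ Q := by
      intro h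
      apply hb'Q
      rw [← hτ] at h
      exact Ideal.smul_mem_pointwise_smul_iff.mp h
    have hτbV : τ b ∉ V.nonunits := fun h => hτb ((hQmem (τ • b')).mpr h)
    have hτb_mem : τ b ∈ V := hZV (τ • b')
    have hτc_mem : τ c ∈ V := hZV (τ • c')
    have hv1 : V.valuation (τ b) = 1 :=
      le_antisymm ((V.valuation_le_one_iff _).mpr hτb_mem) (not_lt.mp hτbV)
    have hτb0 : τ b ≠ 0 := by
      intro h0
      rw [h0, map_zero] at hv1
      exact zero_ne_one hv1
    have hinv : (τ b)⁻¹ ∈ V := by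
      rw [← V.valuation_le_one_iff, map_inv₀, hv1, inv_one]
    have hx' : τ x = τ c * (τ b)⁻¹ := by
      rw [← hxb, map_mul]
      field_simp
    rw [hx']
    exact mul_mem hτc_mem hinv
  have hdec : σ.1 ∈ V.decompositionSubgroup ℚ := by
    rw [MulAction.mem_stabilizer_iff]
    apply SetLike.ext
    intro x
    rw [ValuationSubring.mem_pointwise_smul_iff_inv_smul_mem]
    constructor
    · intro h
      have := hstab σ.1 σ.2 _ h
      simpa using this
    · intro h
      exact hstab σ.1⁻¹ ((MulAction.stabilizer GQ Q).inv_mem σ.2) x h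
  refine ⟨σ.1, hdec, ?_⟩
  intro xbar
  obtain ⟨x, rfl⟩ := IsLocalRing.residue_surjective xbar
  rw [← IsLocalRing.ResidueField.residue_smul, ← map_pow]
  obtain ⟨b, c, hb, hc, hbV, hxb⟩ := exists_num_den V ℓ hℓ hV x.2
  set g : V.decompositionSubgroup ℚ := ⟨σ.1, hdec⟩ with hg
  let bV : V := ⟨b, hZV ⟨b, hb⟩⟩
  let cV : V := ⟨c, hZV ⟨c, hc⟩⟩
  have hxbV : x * bV = cV := Subtype.ext hxb
  -- Frobenius congruence for elements of `V` coming from algebraic integers
  have hres : ∀ (y : Qbar) (hy : IsIntegral ℤ y),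
      IsLocalRing.residue V (g • (⟨y, hZV ⟨y, hy⟩⟩ : V)) =
        IsLocalRing.residue V ((⟨y, hZV ⟨y, hy⟩⟩ : V) ^ ℓ) := by
    intro y hy
    rw [← sub_eq_zero, ← map_sub, IsLocalRing.residue_eq_zero_iff,
      ← ValuationSubring.coe_mem_nonunits_iff]
    have := (hQmem _).mp (hfrob ⟨y, hy⟩)
    exact this
  have hbne : IsLocalRing.residue V bV ≠ 0 := by
    rw [Ne, IsLocalRing.residue_eq_zero_iff, ← ValuationSubring.coe_mem_nonunits_iff]
    exact hbV
  have h1 : IsLocalRing.residue V (g • x) * IsLocalRing.residue V (bV ^ ℓ) =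
      IsLocalRing.residue V (x ^ ℓ) * IsLocalRing.residue V (bV ^ ℓ) := by
    calc IsLocalRing.residue V (g • x) * IsLocalRing.residue V (bV ^ ℓ)
        = IsLocalRing.residue V (g • x) * IsLocalRing.residue V (g • bV) := by
          rw [hres b hb]
      _ = IsLocalRing.residue V (g • cV) := by
          rw [← map_mul, ← smul_mul', hxbV]
      _ = IsLocalRing.residue V (cV ^ ℓ) := hres c hc
      _ = IsLocalRing.residue V (x ^ ℓ) * IsLocalRing.residue V (bV ^ ℓ) := by
          rw [← map_mul, ← mul_pow, hxbV]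
  have hbne' : IsLocalRing.residue V (bV ^ ℓ) ≠ 0 := by
    rw [map_pow]
    exact pow_ne_zero _ hbne
  exact mul_right_cancel₀ hbne' h1

end Frob

/-- **Chapter FROB**: the contract `FrobFacts` of the skeleton, at every `A` over `ℓ`. -/
theorem frobFacts (ℓ : ℕ) (hℓ : ℓ.Prime) (A : ValuationSubring (AlgebraicClosure ℚ))
    (hA : A.LiesOverPrime ℓ) : Fermat.Agent.ES.TOP.Skeleton8.FrobFacts ℓ A := by
  obtain ⟨σ0, hσ0⟩ := exists_isFrobeniusAt_of ℓ hℓ A hA
  refine ⟨σ0, hσ0, ?_, ?_, ?_⟩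
  · intro τ hτ
    exact conj_mem_inertiaSubgroupIn A hσ0.mem_decompositionSubgroup hτ
  · intro σ hσ
    exact conj_isFrobeniusAt A hσ0.mem_decompositionSubgroup hσ
  · intro σ hσ
    exact mul_inv_mem_inertiaSubgroupIn A hσ0 hσ

end Fermat.Agent.ES.FROB.FrobFacts12
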